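import Fermat.Agent.Brouwer.Retraction
import Mathlib.Geometry.Manifold.SmoothApprox
import Mathlib.Analysis.Complex.Basic
import Mathlib.Algebra.Polynomial.RingDivision
import Mathlib.Topology.MetricSpace.Contracting

/-!
# The hairy ball theorem

A continuous tangent field on the sphere of an odd-dimensional Euclidean space has a zero
(Poincaré, Brouwer), by Milnor's proof.
-/

set_option autoImplicit false

noncomputable section

open Set Metric MeasureTheory Polynomial Module
open scoped InnerProductSpace Topology NNReal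

namespace FA.HairyBall

variable {E : Type*} [NormedAddCommGroup E] [InnerProductSpace ℝ E] [FiniteDimensional ℝ E]

omit [FiniteDimensional ℝ E] in
theorem norm_unit {x : E} (hx : x ≠ 0) : ‖‖x‖⁻¹ • x‖ = 1 := by
  rw [norm_smul, norm_inv, norm_norm, inv_mul_cancel₀ (norm_ne_zero_iff.2 hx)]

/-- There is no homogeneous unit tangent field in odd dimension. -/
theorem no_homogeneous_field [MeasurableSpace E] [BorelSpace E] (hodd : Odd (finrank ℝ E))
    (V : E → E) {K : ℝ≥0} (hK : LipschitzWith K V) (hsm : ContDiffOn ℝ 1 V {(0 : E)}ᶜ)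
    (horth : ∀ x, ⟪x, V x⟫_ℝ = 0) (hnorm : ∀ x, ‖V x‖ = ‖x‖) : False := by
  set d := finrank ℝ E with hd
  set B' := closedBall (0 : E) 1 \ {0} with hB'
  have hB'm : MeasurableSet B' := measurableSet_closedBall.diff (measurableSet_singleton 0)
  have hU : IsOpen ({(0 : E)}ᶜ : Set E) := isOpen_compl_singleton
  have : Nontrivial E := Module.nontrivial_of_finrank_pos (R := ℝ) hodd.pos
  let A : ℝ → E → E →L[ℝ] E :=
    fun t x => FA.Brouwer.interpMap (ContinuousLinearMap.id ℝ E + fderiv ℝ V x) t
  have hA : ∀ t x, A t x = ContinuousLinearMap.id ℝ E + t • fderiv ℝ V x := fun t x => by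
    simp only [A, FA.Brouwer.interpMap, smul_add, sub_smul, one_smul]
    abel
  let f : ℝ → E → E := fun t x => x + t • V x
  have hfd : ∀ t, ∀ x : E, x ≠ 0 → HasFDerivAt (f t) (A t x) x := fun t x hx => by
    rw [hA]
    exact (hasFDerivAt_id x).add
      (((hsm.contDiffAt (hU.mem_nhds hx)).differentiableAt one_ne_zero).hasFDerivAt.const_smul t)
  have hfn : ∀ t x, ‖f t x‖ ^ 2 = (1 + t ^ 2) * ‖x‖ ^ 2 := fun t x => by
    simp only [f, norm_add_sq_real, real_inner_smul_right, horth, norm_smul, hnorm, mul_pow,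
      Real.norm_eq_abs, sq_abs]
    ring
  -- for small `t` the image of the punctured ball is a punctured ball
  have hvol : ∀ t : ℝ, 0 ≤ t → t * (K + 1) < 1 →
      ∫ x in B', (A t x).det = Real.sqrt (1 + t ^ 2) ^ d * volume.real B' := by
    intro t ht0 ht
    have htK : t * K < 1 := by nlinarith
    set c := Real.sqrt (1 + t ^ 2) with hc
    have hcpos : 0 < c := Real.sqrt_pos.2 (by positivity)
    have hfn' : ∀ x, ‖f t x‖ = c * ‖x‖ := fun x => by
      rw [← Real.sqrt_sq (norm_nonneg (f t x)), hfn, Real.sqrt_mul (by positivity),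
        Real.sqrt_sq (norm_nonneg x)]
    have hcontr : ∀ y : E, ContractingWith (Real.toNNReal (t * K)) fun x => y - t • V x := by
      refine fun y => ⟨by rwa [Real.toNNReal_lt_one], LipschitzWith.of_dist_le_mul fun a b => ?_⟩
      rw [dist_eq_norm, dist_eq_norm, sub_sub_sub_cancel_left, ← smul_sub, norm_smul,
        Real.norm_of_nonneg ht0, norm_sub_rev (V b), Real.coe_toNNReal _ (by positivity), mul_assoc]
      gcongr
      exact hK.norm_sub_le a b
    have hinj : InjOn (f t) B' := fun a _ b _ hab => by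
      refine (hcontr (f t b)).fixedPoint_unique' (x := a) (y := b) ?_ ?_
      · show f t b - t • V a = a
        rw [← hab]; simp [f]
      · show f t b - t • V b = b
        simp [f]
    have himage : f t '' B' = (c • ·) '' B' := by
      refine Subset.antisymm ?_ ?_
      · rintro _ ⟨x, ⟨hx, hx0⟩, rfl⟩
        refine ⟨c⁻¹ • f t x, ⟨?_, ?_⟩, by simp [smul_smul, hcpos.ne']⟩
        · rw [mem_closedBall_zero_iff, norm_smul, norm_inv, Real.norm_of_nonneg hcpos.le, hfn',
            ← mul_assoc, inv_mul_cancel₀ hcpos.ne', one_mul]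
          exact mem_closedBall_zero_iff.1 hx
        · simp only [mem_singleton_iff, smul_eq_zero, inv_eq_zero, hcpos.ne', false_or]
          intro h
          have := hfn' x
          rw [h, norm_zero] at this
          exact hx0 (norm_eq_zero.1 ((mul_eq_zero.1 this.symm).resolve_left hcpos.ne'))
      · rintro _ ⟨y, ⟨hy, hy0⟩, rfl⟩
        set x := ContractingWith.fixedPoint _ (hcontr (c • y)) with hxdef
        have hfix : c • y - t • V x = x := (hcontr (c • y)).fixedPoint_isFixedPt
        have hfx : f t x = c • y := by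
          show x + t • V x = c • y
          exact eq_sub_iff_add_eq.1 hfix.symm
        have hnx : ‖x‖ = ‖y‖ := by
          have := hfn' x
          rw [hfx, norm_smul, Real.norm_of_nonneg hcpos.le] at this
          exact (mul_left_cancel₀ hcpos.ne' this).symm
        refine ⟨x, ⟨?_, fun h => hy0 ?_⟩, hfx⟩
        · rw [mem_closedBall_zero_iff, hnx]
          exact mem_closedBall_zero_iff.1 hy
        · rw [mem_singleton_iff] at h ⊢
          rw [← norm_eq_zero, ← hnx, h, norm_zero]
    have hint := integral_image_eq_integral_abs_det_fderiv_smul volume hB'm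
      (fun x hx => (hfd t x hx.2).hasFDerivWithinAt) hinj fun _ => (1 : ℝ)
    rw [himage, setIntegral_const, smul_eq_mul, mul_one, measureReal_def] at hint
    rw [image_smul, Measure.addHaar_smul, ENNReal.toReal_mul, ENNReal.toReal_ofReal (abs_nonneg _),
      ← measureReal_def, abs_of_nonneg (pow_nonneg hcpos.le _)] at hint
    rw [hd, hint]
    refine setIntegral_congr_fun hB'm fun x hx => ?_
    simp only [smul_eq_mul, mul_one]
    -- the determinant is positive
    have hcont : Continuous fun s : ℝ => (A s x).det := by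
      simp only [hA]
      exact ContinuousLinearMap.continuous_det.comp
        (continuous_const.add (continuous_id.smul continuous_const))
    refine (abs_of_nonneg ?_).symm
    by_contra! hlt
    have h1 : (A 0 x).det = 1 := by simp [hA, ContinuousLinearMap.det]
    obtain ⟨s, hs, hs0⟩ := intermediate_value_Icc' ht0 hcont.continuousOn
      (show (0 : ℝ) ∈ Icc ((A t x).det) ((A 0 x).det) from ⟨hlt.le, h1 ▸ zero_le_one⟩)
    obtain ⟨w, hw, hw0⟩ := (LinearMap.ker (A s x : E →ₗ[ℝ] E)).exists_mem_ne_zero_of_ne_bot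
      ((LinearMap.det_eq_zero_iff_ker_ne_bot).1 hs0)
    have hw' : w = -(s • fderiv ℝ V x w) := eq_neg_of_add_eq_zero_left (by simpa [hA] using hw)
    have h2 := congrArg norm hw'
    rw [norm_neg, norm_smul, Real.norm_of_nonneg hs.1] at h2
    have h3 : ‖fderiv ℝ V x w‖ ≤ K * ‖w‖ := (ContinuousLinearMap.le_opNorm _ w).trans
      (mul_le_mul_of_nonneg_right (norm_fderiv_le_of_lipschitz ℝ hK) (norm_nonneg _))
    have h4 : s * ‖fderiv ℝ V x w‖ ≤ t * (K * ‖w‖) :=
      mul_le_mul hs.2 h3 (norm_nonneg _) ht0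
    nlinarith [norm_pos_iff.2 hw0]
  -- the integral is a polynomial in `t`
  set N := Finset.range (d + 1)
  set Q : ℝ[X] := ∑ j ∈ N, C (∫ x in B', (A j x).det) *
    Lagrange.basis N (fun k : ℕ => (k : ℝ)) j
  have hQ : ∀ t : ℝ, ∫ x in B', (A t x).det = Q.eval t := by
    intro t
    simp only [A, FA.Brouwer.det_interpMap _ t, Q, eval_finsetSum, eval_mul, eval_C]
    rw [integral_finsetSum]
    · exact Finset.sum_congr rfl fun j _ => by rw [integral_const_mul, mul_comm]
    · intro j _
      obtain ⟨M, hM⟩ := (isCompact_closedBall (ContinuousLinearMap.id ℝ E) ((j : ℝ) * K)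
        ).exists_bound_of_continuousOn
          (f := ContinuousLinearMap.det) ContinuousLinearMap.continuous_det.continuousOn
      have hi : IntegrableOn (fun x => (A j x).det) B' volume := by
        refine IntegrableOn.of_bound ((measure_mono sdiff_subset).trans_lt
          (measure_closedBall_lt_top (μ := volume) (x := (0 : E)) (r := 1))) ?_ M ?_
        · refine ContinuousOn.aestronglyMeasurable ?_ hB'm
          refine ContinuousLinearMap.continuous_det.comp_continuousOn ?_
          exact (continuousOn_const.add (((hsm.continuousOn_fderiv_of_isOpen hU le_rfl).mono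
            fun x hx => hx.2).const_smul (j : ℝ))).congr fun x _ => hA _ x
        · refine ae_restrict_of_forall_mem hB'm fun x _ => hM _ ?_
          rw [mem_closedBall, dist_eq_norm, hA, add_sub_cancel_left, norm_smul, Real.norm_natCast]
          exact mul_le_mul_of_nonneg_left (norm_fderiv_le_of_lipschitz ℝ hK) (Nat.cast_nonneg j)
      exact hi.const_mul _
  have hV0 : 0 < volume.real B' := by
    rw [measureReal_def, ENNReal.toReal_pos_iff, hB',
      measure_sdiff_null (measure_singleton (0 : E))]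
    exact ⟨measure_closedBall_pos volume 0 one_pos, measure_closedBall_lt_top⟩
  have hsq : Q ^ 2 = C (volume.real B' ^ 2) * (X ^ 2 + 1) ^ d := by
    refine eq_of_infinite_eval_eq _ _ (Set.Infinite.mono ?_ (Ioo_infinite (a := (0 : ℝ))
      (b := 1 / (K + 1)) (by positivity)))
    intro t ht
    simp only [mem_ofPred_eq, eval_pow, eval_mul, eval_C, eval_add, eval_X, eval_one, ← hQ]
    rw [hvol t ht.1.le ((lt_div_iff₀ (by positivity)).1 ht.2), mul_pow, ← pow_mul, mul_comm d 2,
      pow_mul, Real.sq_sqrt (by positivity)]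
    ring
  -- compare the multiplicities of the root `I`
  have h := congrArg (Polynomial.map (algebraMap ℝ ℂ)) hsq
  simp only [Polynomial.map_pow, Polynomial.map_mul, Polynomial.map_add, map_C, map_X,
    Polynomial.map_one] at h
  have hsplit : (X ^ 2 + 1 : ℂ[X]) = (X - C Complex.I) * (X - C (-Complex.I)) := by
    rw [map_neg, sub_neg_eq_add, ← sub_eq_zero]
    ring_nf
    rw [← C_pow, Complex.I_sq]
    simp
  have hne : (C (algebraMap ℝ ℂ (volume.real B' ^ 2)) * (X ^ 2 + 1) ^ d : ℂ[X]) ≠ 0 := by
    refine mul_ne_zero (by simpa using hV0.ne') (pow_ne_zero _ ?_)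
    rw [hsplit]
    exact mul_ne_zero (X_sub_C_ne_zero _) (X_sub_C_ne_zero _)
  have hr := congrArg (rootMultiplicity Complex.I) h
  rw [sq, rootMultiplicity_mul (by rw [← sq, h]; exact hne), rootMultiplicity_mul hne, hsplit,
    mul_pow, rootMultiplicity_C, zero_add] at hr
  rw [rootMultiplicity_mul (mul_ne_zero (pow_ne_zero _ (X_sub_C_ne_zero _))
      (pow_ne_zero _ (X_sub_C_ne_zero _))), rootMultiplicity_X_sub_C_pow,
    rootMultiplicity_eq_zero (p := (X - C (-Complex.I)) ^ d)
      (by simp [Complex.ext_iff, hodd.pos.ne']), add_zero] at hr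
  exact Nat.not_even_iff_odd.2 hodd ⟨_, hr.symm⟩

/-- **The hairy ball theorem.** -/
theorem exists_zero (hodd : Odd (finrank ℝ E)) (v : E → E)
    (hv : ContinuousOn v (sphere (0 : E) 1)) (htan : ∀ x ∈ sphere (0 : E) 1, ⟪x, v x⟫_ℝ = 0) :
    ∃ x ∈ sphere (0 : E) 1, v x = 0 := by
  by_contra! hno
  let : MeasurableSpace E := borel E
  have : BorelSpace E := ⟨rfl⟩
  set S := sphere (0 : E) 1 with hS
  have hSc : IsCompact S := isCompact_sphere 0 1
  have hmemS : ∀ x : E, x ≠ 0 → ‖x‖⁻¹ • x ∈ S := fun x hx =>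
    mem_sphere_zero_iff_norm.2 (norm_unit hx)
  -- a continuous extension and a smooth approximation
  let F : E → E := fun x => ‖x‖ • v (‖x‖⁻¹ • x)
  obtain ⟨M, hM⟩ := hSc.exists_bound_of_continuousOn hv
  have hF : Continuous F := by
    refine continuous_iff_continuousAt.2 fun x => ?_
    rcases eq_or_ne x 0 with rfl | hx
    · have h0 : F 0 = 0 := by simp [F]
      rw [ContinuousAt, h0]
      refine squeeze_zero_norm (a := fun y => max M 0 * ‖y‖) (fun y => ?_) ?_
      · rcases eq_or_ne y 0 with rfl | hy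
        · simp [F]
        · simp only [F, norm_smul, norm_norm]
          rw [mul_comm (max M 0)]
          gcongr
          exact (hM _ (hmemS y hy)).trans (le_max_left _ _)
      · simpa using (continuous_norm.const_mul (max M 0)).tendsto (0 : E)
    · refine ((continuous_norm.continuousOn (s := {(0 : E)}ᶜ)).smul (hv.comp ?_ fun y hy =>
        hmemS y hy)).continuousAt (isOpen_compl_singleton.mem_nhds hx)
      exact (continuous_norm.continuousOn.inv₀ fun y hy => norm_ne_zero_iff.2 hy).smul
        continuousOn_id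
  have hFv : ∀ x ∈ S, F x = v x := fun x hx => by
    simp [F, mem_sphere_zero_iff_norm.1 hx]
  obtain ⟨δ, hδ, hδv⟩ := hSc.exists_forall_le' hv.norm fun x hx => norm_pos_iff.2 (hno x hx)
  obtain ⟨g, hg, hgF, -⟩ := hF.exists_contDiff_approx 1 continuous_const
    (ε := fun _ => δ / 3) fun _ => by positivity
  set q : E → E := fun u => g u - ⟪g u, u⟫_ℝ • u with hq
  have hq0 : ∀ u ∈ S, q u ≠ 0 := by
    intro u hu h
    have hu1 := mem_sphere_zero_iff_norm.1 hu
    have h1 : ‖g u - v u‖ < δ / 3 := by rw [← hFv u hu, ← dist_eq_norm]; exact hgF u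
    have h2 : |⟪g u, u⟫_ℝ| ≤ ‖g u - v u‖ := by
      have e : ⟪g u - v u, u⟫_ℝ = ⟪g u, u⟫_ℝ := by
        rw [inner_sub_left, real_inner_comm u (v u), htan u hu, sub_zero]
      rw [← e]
      simpa [hu1] using abs_real_inner_le_norm (g u - v u) u
    have h3 : v u = (v u - g u) + ⟪g u, u⟫_ℝ • u := by
      rw [sub_add, show g u - ⟪g u, u⟫_ℝ • u = 0 from h, sub_zero]
    have h4 := congrArg norm h3 ▸ norm_add_le (v u - g u) (⟪g u, u⟫_ℝ • u)
    rw [norm_smul, hu1, mul_one, Real.norm_eq_abs, norm_sub_rev] at h4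
    linarith [hδv u hu]
  set W := {u : E | q u ≠ 0}
  have hqc : ContDiff ℝ 1 q := hg.sub ((hg.inner ℝ contDiff_id).smul contDiff_id)
  have hWo : IsOpen W := isOpen_ne_fun hqc.continuous continuous_const
  set h : E → E := fun u => ‖q u‖⁻¹ • q u with hh
  have hhc : ContDiffOn ℝ 1 h W := fun u hu =>
    (((hqc.contDiffAt.norm ℝ hu).inv (norm_ne_zero_iff.2 hu)).smul
      hqc.contDiffAt).contDiffWithinAt
  obtain ⟨K, hK⟩ := LocallyLipschitzOn.exists_lipschitzOnWith_of_compact hSc (f := h)
    fun u hu => by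
      obtain ⟨K, t, ht, hKt⟩ :=
        (hhc.contDiffAt (hWo.mem_nhds (hq0 u hu))).exists_lipschitzOnWith
      exact ⟨K, t, nhdsWithin_le_nhds ht, hKt⟩
  let V : E → E := fun x => ‖x‖ • h (‖x‖⁻¹ • x)
  have hV1 : ∀ x, ‖V x‖ = ‖x‖ := fun x => by
    rcases eq_or_ne x 0 with rfl | hx
    · simp [V]
    simp only [V, hh, norm_smul, norm_norm, norm_inv]
    rw [inv_mul_cancel₀ (norm_ne_zero_iff.2 (hq0 _ (hmemS x hx))), mul_one]
  refine no_homogeneous_field hodd V (K := 1 + 2 * K) (LipschitzWith.of_dist_le_mul fun x y => ?_)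
    ?_ (fun x => ?_) hV1
  · rw [dist_eq_norm, dist_eq_norm, NNReal.coe_add, NNReal.coe_one, NNReal.coe_mul,
      NNReal.coe_ofNat]
    have hK0 : (0 : ℝ) ≤ K := K.coe_nonneg
    rcases eq_or_ne x 0 with rfl | hx
    · rw [show V 0 = 0 by simp [V], zero_sub, zero_sub, norm_neg, norm_neg, hV1]
      nlinarith [norm_nonneg y]
    rcases eq_or_ne y 0 with rfl | hy
    · rw [show V 0 = 0 by simp [V], sub_zero, sub_zero, hV1]
      nlinarith [norm_nonneg x]
    set a := ‖x‖⁻¹ • x
    set b := ‖y‖⁻¹ • y
    have e : V x - V y = (‖x‖ - ‖y‖) • h a + ‖y‖ • (h a - h b) := by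
      simp only [V, sub_smul, smul_sub, a, b]
      abel
    have hha : ‖h a‖ = 1 := norm_unit (hq0 a (hmemS x hx))
    have hab : ‖y‖ * ‖a - b‖ ≤ 2 * ‖x - y‖ := by
      have e' : ‖y‖ • (a - b) = (‖y‖ - ‖x‖) • a + (x - y) := by
        have hx' := norm_ne_zero_iff.2 hx
        have hy' := norm_ne_zero_iff.2 hy
        simp only [a, b]
        match_scalars <;> field_simp
        ring
      have h' := congrArg norm e' ▸ norm_add_le ((‖y‖ - ‖x‖) • a) (x - y)
      rw [norm_smul, norm_norm, norm_smul, norm_unit hx, mul_one, Real.norm_eq_abs] at h'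
      have := abs_norm_sub_norm_le y x
      rw [norm_sub_rev y x] at this
      linarith
    rw [e]
    refine (norm_add_le _ _).trans ?_
    rw [norm_smul (‖x‖ - ‖y‖) (h a), norm_smul ‖y‖ (h a - h b), hha, mul_one, Real.norm_eq_abs,
      norm_norm]
    have h1 := abs_norm_sub_norm_le x y
    have h2 : ‖y‖ * ‖h a - h b‖ ≤ ‖y‖ * (K * ‖a - b‖) :=
      mul_le_mul_of_nonneg_left (hK.norm_sub_le (hmemS x hx) (hmemS y hy)) (norm_nonneg y)
    nlinarith
  · intro x hx
    refine ((contDiffAt_norm ℝ hx).smul ?_).contDiffWithinAt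
    exact ContDiffAt.comp x (f := fun y : E => ‖y‖⁻¹ • y)
      (hhc.contDiffAt (hWo.mem_nhds (hq0 _ (hmemS x hx))))
      (((contDiffAt_norm ℝ hx).inv (norm_ne_zero_iff.2 hx)).smul contDiffAt_id)
  · rcases eq_or_ne x 0 with rfl | hx
    · simp
    have key : ⟪‖x‖⁻¹ • x, q (‖x‖⁻¹ • x)⟫_ℝ = 0 := by
      simp only [hq, inner_sub_right, real_inner_smul_right, real_inner_self_eq_norm_sq,
        norm_unit hx, real_inner_comm (‖x‖⁻¹ • x) (g (‖x‖⁻¹ • x))]
      ring
    rw [real_inner_smul_left] at key
    have h0 := (mul_eq_zero.1 key).resolve_left (inv_ne_zero (norm_ne_zero_iff.2 hx))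
    simp only [V, hh, real_inner_smul_right, h0, mul_zero]

/-- A self map of an even-dimensional sphere has a fixed or an antipodal point. -/
theorem exists_fixed_or_antipodal (hodd : Odd (finrank ℝ E)) (f : E → E)
    (hf : ContinuousOn f (sphere (0 : E) 1)) (hmap : MapsTo f (sphere 0 1) (sphere 0 1)) :
    ∃ x ∈ sphere (0 : E) 1, f x = x ∨ f x = -x := by
  obtain ⟨x, hx, h⟩ := exists_zero hodd (fun u => f u - ⟪f u, u⟫_ℝ • u)
    (hf.sub ((hf.inner continuousOn_id).smul continuousOn_id)) fun u hu => by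
      simp only [inner_sub_right, real_inner_smul_right, real_inner_self_eq_norm_sq,
        mem_sphere_zero_iff_norm.1 hu, real_inner_comm u (f u)]
      ring
  refine ⟨x, hx, ?_⟩
  have hx1 := mem_sphere_zero_iff_norm.1 hx
  have h1 := congrArg norm (sub_eq_zero.1 h)
  rw [mem_sphere_zero_iff_norm.1 (hmap hx), norm_smul, hx1, mul_one, Real.norm_eq_abs] at h1
  rcases (abs_eq zero_le_one).1 h1.symm with e | e <;>
    rw [sub_eq_zero.1 h, e] <;> simp

end FA.HairyBall

end
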