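import Fermat.Agent.Brouwer.Basic

/-!
# The fixed point theorem of Schauder

A continuous self map of a nonempty compact convex subset of a normed space has a fixed point.
-/

set_option autoImplicit false

noncomputable section

open Set Metric

namespace FA.HairyBall

variable {V : Type*} [NormedAddCommGroup V] [NormedSpace ℝ V]

/-- An almost fixed point, from Brouwer's theorem and the projection of Schauder. -/
theorem exists_almost_fixed {s : Set V} (hc : IsCompact s) (hconv : Convex ℝ s)
    (hne : s.Nonempty) {f : V → V} (hf : ContinuousOn f s) (hmap : MapsTo f s s) {ε : ℝ}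
    (hε : 0 < ε) : ∃ x ∈ s, ‖f x - x‖ ≤ ε := by
  obtain ⟨t, hts, htf, hcover⟩ := hc.finite_cover_balls hε
  set T := htf.toFinset
  set H := Submodule.span ℝ t with hH
  have : FiniteDimensional ℝ H := FiniteDimensional.span_of_finite ℝ htf
  set w : V → V → ℝ := fun i x => max 0 (ε - dist x i) with hw
  set P : V → V := fun x => T.centerMass (fun i => w i x) id with hP
  have hpos : ∀ x ∈ s, 0 < ∑ i ∈ T, w i x := fun x hx => by
    obtain ⟨i, hi, hxi⟩ := mem_iUnion₂.1 (hcover hx)
    exact Finset.sum_pos' (fun j _ => le_max_left _ _)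
      ⟨i, htf.mem_toFinset.2 hi, lt_max_of_lt_right (sub_pos.2 hxi)⟩
  have hhull : ∀ x ∈ s, P x ∈ convexHull ℝ t := fun x hx =>
    T.centerMass_mem_convexHull (fun i _ => le_max_left _ _) (hpos x hx)
      fun i hi => htf.mem_toFinset.1 hi
  have hclose : ∀ x ∈ s, ‖P x - x‖ ≤ ε := fun x hx => by
    rw [← dist_eq_norm, ← mem_closedBall]
    rw [hP]
    dsimp only
    rw [← Finset.centerMass_filter_ne_zero]
    refine (convex_closedBall x ε).centerMass_mem (fun i _ => le_max_left _ _) ?_ fun i hi => ?_
    · rw [Finset.sum_filter_ne_zero]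
      exact hpos x hx
    · have h := (Finset.mem_filter.1 hi).2
      simp only [hw, ne_eq, max_eq_left_iff, not_le, sub_pos] at h
      exact mem_closedBall'.2 h.le
  set s' : Set H := H.subtype ⁻¹' convexHull ℝ t
  have hsub : convexHull ℝ t ⊆ s := convexHull_min hts hconv
  have hspan : convexHull ℝ t ⊆ (H : Set V) := convexHull_min Submodule.subset_span H.convex
  have hPc : ContinuousOn P s := by
    simp only [hP, Finset.centerMass, id_eq]
    have hwc : ∀ i, Continuous (w i) := fun i => by
      simp only [hw]
      fun_prop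
    exact ((continuous_finsetSum _ fun i _ => hwc i).continuousOn.inv₀ fun x hx => (hpos x hx).ne'
      ).smul (continuous_finsetSum _ fun i _ => (hwc i).smul continuous_const).continuousOn
  classical
  let g : H → H := fun y => if h : P (f y) ∈ H then ⟨P (f y), h⟩ else 0
  have hg : ∀ y ∈ s', (g y : V) = P (f y) := fun y hy => by
    simp [g, dif_pos (show P (f y) ∈ H from hspan (hhull _ (hmap (hsub hy))))]
  have hne' : s'.Nonempty := by
    obtain ⟨x, hx⟩ := hne
    exact ⟨⟨_, hspan (hhull x hx)⟩, hhull x hx⟩
  have hgc : ContinuousOn g s' := by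
    rw [Topology.IsInducing.subtypeVal.continuousOn_iff]
    exact (hPc.comp (hf.comp continuous_subtype_val.continuousOn fun z hz => hsub hz)
      fun z hz => hmap (hsub hz)).congr fun z hz => hg z hz
  have hgmap : MapsTo g s' s' := fun z hz => by
    show (g z : V) ∈ convexHull ℝ t
    rw [hg z hz]
    exact hhull _ (hmap (hsub hz))
  obtain ⟨y, hy, hfix⟩ := FA.Brouwer.exists_fixed
    ((H.closed_of_finiteDimensional.isClosedEmbedding_subtypeVal).isCompact_preimage
      (htf.isCompact_convexHull ℝ))
    ((convex_convexHull ℝ t).linear_preimage H.subtype) hne' hgc hgmap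
  refine ⟨y, hsub hy, ?_⟩
  have h := congrArg Subtype.val hfix
  rw [hg y hy] at h
  have := hclose (f y) (hmap (hsub hy))
  rwa [h, norm_sub_rev] at this

/-- **Schauder's fixed point theorem.** -/
theorem exists_fixed {s : Set V} (hc : IsCompact s) (hconv : Convex ℝ s) (hne : s.Nonempty)
    {f : V → V} (hf : ContinuousOn f s) (hmap : MapsTo f s s) : ∃ x ∈ s, f x = x := by
  obtain ⟨x, hx, hmin⟩ := hc.exists_isMinOn hne (hf.sub continuousOn_id).norm
  refine ⟨x, hx, sub_eq_zero.1 (norm_le_zero_iff.1 (le_of_forall_pos_le_add fun ε hε => ?_))⟩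
  obtain ⟨y, hy, hyε⟩ := exists_almost_fixed hc hconv hne hf hmap hε
  rw [zero_add]
  exact le_trans (hmin hy) hyε

end FA.HairyBall

end
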